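/-
S28 (Igusa), W2b, generic part: the expansion in `t = exp (2 π i z / N)` of
`z ↦ g ((a z + b) / e)` for a function `g` on `ℍ` with a Laurent `q`-expansion:
`q ↦ ζ_e ^ b * t ^ k` with `k = N a / e`.  Germ = S24's `fi_germ N` (`= gm_cusp N`).
Also: the Laurent `q`-expansions of `j` and `Δ` in terms of the prelude's integral series.
-/
import Mathlib
import Fermat.Prelude.Def_ModularCurve_JqCoeff
import Fermat.Agent.S24.FamilyInfty
import Fermat.Agent.S24.Germ.Cusp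
import Fermat.Agent.S24.Bridge.LaurentQ
import Fermat.Agent.S24.WeakModFun

set_option autoImplicit false

open UpperHalfPlane ModularForm Filter Topology Function Complex
open scoped MatrixGroups Manifold Real
open Fermat.Agent.S23.QF (IsQFun)
open Fermat.Agent.S23 (alphaN)
open Fermat.Agent.S24

namespace Fermat.Agent.S28

local notation "Δ" => ModularForm.discriminant

/-! ### `fi_germ N = gm_cusp N` -/

theorem tx_alphaN_smul_eq_scaleMap (N : ℕ) [NeZero N] (τ : ℍ) :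
    alphaN N • τ = gm_scaleMap N τ := by
  apply UpperHalfPlane.ext
  rw [Fermat.Agent.S23.coe_alphaN_smul, gm_coe_scaleMap]

theorem tx_fi_germ_eq_cusp (N : ℕ) [NeZero N] (h : ℍ → ℂ) : fi_germ N h = gm_cusp N h := by
  unfold fi_germ gm_cusp
  congr 1
  ext τ
  rw [comp_apply, tx_alphaN_smul_eq_scaleMap]

theorem tx_fi_P_iff (N : ℕ) [NeZero N] (h : ℍ → ℂ) :
    fi_P N h ↔ gm_IsMerQ (h ∘ gm_scaleMap N) := by
  unfold fi_P
  have : (fun τ => h (alphaN N • τ)) = h ∘ gm_scaleMap N := by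
    ext τ
    rw [comp_apply, tx_alphaN_smul_eq_scaleMap]
  rw [this]

theorem tx_fi_P_of_isMerCusp {N : ℕ} [NeZero N] {h : ℍ → ℂ} (hh : gm_IsMerCusp N h) :
    fi_P N h :=
  (tx_fi_P_iff N h).mpr hh.isMerQ

/-! ### The upper triangular substitution -/

section Tri

variable (N : ℕ) [NeZero N] (a b e : ℤ) (ha : 0 < a) (he : 0 < e) (k : ℕ) [NeZero k]

include ha he in
theorem tx_tri_smul_alphaN (hk : (N : ℤ) * a = k * e) (τ : ℍ) :
    upperTri a b e ha.ne' he.ne' • (alphaN N • τ)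
      = ((b : ℝ) / (e : ℝ) : ℝ) +ᵥ gm_scaleMap k τ := by
  apply UpperHalfPlane.ext
  rw [coe_upperTri_smul a b e ha he, Fermat.Agent.S23.coe_alphaN_smul, coe_vadd, gm_coe_scaleMap]
  have he' : (e : ℂ) ≠ 0 := by exact_mod_cast he.ne'
  have hk' : (N : ℂ) * a = k * e := by exact_mod_cast hk
  push_cast
  field_simp
  linear_combination (τ : ℂ) * hk'

/-- `τ ↦ g (T • (N τ))` is `(g (b/e + ·)) ∘ (k ·)` -/
theorem tx_comp_tri_eq (hk : (N : ℤ) * a = k * e) (g : ℍ → ℂ) :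
    (fun τ => (fun z => g (upperTri a b e ha.ne' he.ne' • z)) (alphaN N • τ))
      = (fun w => g (((b : ℝ) / (e : ℝ) : ℝ) +ᵥ w)) ∘ gm_scaleMap k := by
  ext τ
  simp only [comp_apply]
  rw [tx_tri_smul_alphaN N a b e ha he k hk]

/-- `z ↦ g ((a z + b)/e)` is admissible at the cusp of width `N` when `e ∣ N a`. -/
theorem tx_fi_P_comp_tri (hk : (N : ℤ) * a = k * e) {g : ℍ → ℂ} (hg : gm_IsMerQ g) :
    fi_P N (fun z => g (upperTri a b e ha.ne' he.ne' • z)) := by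
  unfold fi_P
  rw [tx_comp_tri_eq N a b e ha he k hk g]
  exact (gm_IsMerQ.isMerCusp (N := k) (hg.vadd _)).isMerQ

/-- **the `t`-expansion of `g ((a z + b)/e)`**: `q ↦ exp (2 π i b / e) * t ^ k`, `k = N a / e`. -/
theorem tx_germ_comp_tri_coeff (hk : (N : ℤ) * a = k * e) {g : ℍ → ℂ} (hg : gm_IsMerQ g)
    (n : ℤ) :
    (fi_germ N (fun z => g (upperTri a b e ha.ne' he.ne' • z))).coeff n
      = if (k : ℤ) ∣ n then
          cexp (2 * π * Complex.I * (((b : ℝ) / (e : ℝ) : ℝ) : ℂ)) ^ (n / (k : ℤ))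
            * (gm_lq g).coeff (n / (k : ℤ))
        else 0 := by
  unfold fi_germ
  rw [tx_comp_tri_eq N a b e ha he k hk g]
  have h1 := gm_cusp_coeff_of_isMerQ (N := k) (hg.vadd ((b : ℝ) / (e : ℝ))) n
  unfold gm_cusp at h1
  rw [h1]
  split_ifs with hd
  · rw [gm_lq_coeff_vadd hg]
  · rfl

end Tri

/-! ### From `br_HasLaurentQ` to `gm_lq` -/

theorem tx_lq_of_hasLaurentQ {g : ℍ → ℂ} {f : LaurentSeries ℂ} (h : br_HasLaurentQ g f) :
    gm_IsMerQ g ∧ gm_lq g = f := by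
  obtain ⟨m, h1, h2⟩ := h
  refine ⟨⟨m, h1⟩, ?_⟩
  rw [gm_lq_eq h1, h2, ← mul_assoc, HahnSeries.single_mul_single]
  simp only [neg_add_cancel, mul_one]
  exact one_mul f

/-! ### The expansions of `j` and `Δ` -/

theorem tx_jNumQ_map : ModularCurve.jNumQ.map (algebraMap ℚ ℂ)
    = ModularCurve.jNum.map (Int.castRingHom ℂ) := by
  ext n
  simp [ModularCurve.jNumQ, PowerSeries.coeff_map]

/-- the Laurent `q`-expansion of `j` is the prelude's `jqModC ℂ` -/
theorem tx_lq_kleinJ : gm_lq kleinJ = ModularCurve.jqModC ℂ := by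
  rw [(tx_lq_of_hasLaurentQ br_HasLaurentQ_kleinJ).2, br_jqC_eq, tx_jNumQ_map]
  rfl

/-- the formal `q`-expansion of `Δ`: `q ∏ (1 - qⁿ)²⁴` -/
noncomputable def tx_DeltaC : LaurentSeries ℂ :=
  HahnSeries.single (1 : ℤ) (1 : ℂ)
    * HahnSeries.ofPowerSeries ℤ ℂ (ModularCurve.dedekindEtaUnit.map (Int.castRingHom ℂ))

theorem tx_discriminant_eq : (Δ : ℍ → ℂ) = qH * etaProdH := by
  ext z
  simp only [etaProdH, Pi.mul_apply, Pi.div_apply]
  field_simp [qH_ne_zero z]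

theorem tx_isMerQ_discriminant : gm_IsMerQ (Δ : ℍ → ℂ) :=
  gm_IsMerQ.of_isQFun isQFun_discriminant

theorem tx_lq_discriminant : gm_lq (Δ : ℍ → ℂ) = tx_DeltaC := by
  rw [tx_discriminant_eq, gm_lq_mul gm_isMerQ_qH (gm_IsMerQ.of_isQFun isQFun_etaProdH),
    gm_lq_of_isQFun isQFun_qH, gm_lq_of_isQFun isQFun_etaProdH, gm_qExpansion_qH,
    br_qExpansion_etaProdH, HahnSeries.ofPowerSeries_X, tx_DeltaC]

end Fermat.Agent.S28
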