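/-
S28 (Igusa), W2b: the conjugates `j_d ∘ γ` and the modular units
`u_m = m¹² Δ(m z)/Δ(z)`, their `SL(2,ℤ)`-translates in Hermite normal form, and their
expansions in `t = exp (2 π i z / N)`.
-/
import Mathlib
import Fermat.Agent.S23.DeltaN
import Fermat.Agent.S28.Analytic.TriExpansion
import Fermat.Agent.S28.Formal.Defs
import Fermat.Agent.S28.Comb.HNF

set_option autoImplicit false

open UpperHalfPlane ModularForm Filter Topology Function Complex CongruenceSubgroup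
open scoped MatrixGroups Manifold Real
open Fermat.Agent.S23.QF (IsQFun)
open Fermat.Agent.S23 (alphaN deltaN)
open Fermat.Agent.S24

namespace Fermat.Agent.S28

local notation "Δ" => ModularForm.discriminant

/-! ### The functions -/

/-- the conjugate `z ↦ j (d (γ z))` of `j_d` -/
noncomputable def tx_yfun (d : ℕ) [NeZero d] (γ : SL(2, ℤ)) (z : ℍ) : ℂ :=
  kleinJ (alphaN d • (γ • z))

/-- the modular unit `u_m (w) = m¹² Δ(m w) / Δ(w)` -/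
noncomputable def tx_u (m : ℕ) [NeZero m] (w : ℍ) : ℂ :=
  (m : ℂ) ^ 12 * Δ (alphaN m • w) / Δ w

/-- the conjugate `z ↦ u_m (γ z)` -/
noncomputable def tx_ufun (m : ℕ) [NeZero m] (γ : SL(2, ℤ)) (z : ℍ) : ℂ :=
  tx_u m (γ • z)

theorem tx_yfun_apply (d : ℕ) [NeZero d] (γ : SL(2, ℤ)) (z : ℍ) :
    tx_yfun d γ z = kleinJ (alphaN d • (γ • z)) := rfl

theorem tx_ufun_apply (m : ℕ) [NeZero m] (γ : SL(2, ℤ)) (z : ℍ) :
    tx_ufun m γ z = (m : ℂ) ^ 12 * Δ (alphaN m • (γ • z)) / Δ (γ • z) := rfl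

theorem tx_yfun_eq_jd (d : ℕ) [NeZero d] (γ : SL(2, ℤ)) (z : ℍ) :
    tx_yfun d γ z = jd d (γ • z) := rfl

theorem tx_yfun_mul (d : ℕ) [NeZero d] (γ δ : SL(2, ℤ)) (z : ℍ) :
    tx_yfun d (γ * δ) z = tx_yfun d γ (δ • z) := by
  rw [tx_yfun_apply, tx_yfun_apply, mul_smul]

theorem tx_ufun_mul (m : ℕ) [NeZero m] (γ δ : SL(2, ℤ)) (z : ℍ) :
    tx_ufun m (γ * δ) z = tx_ufun m γ (δ • z) := by
  rw [tx_ufun, tx_ufun, mul_smul]

theorem tx_u_ne_zero (m : ℕ) [NeZero m] (w : ℍ) : tx_u m w ≠ 0 := by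
  unfold tx_u
  have hm : (m : ℂ) ≠ 0 := Nat.cast_ne_zero.mpr (NeZero.ne m)
  exact div_ne_zero (mul_ne_zero (pow_ne_zero _ hm) (discriminant_ne_zero _))
    (discriminant_ne_zero _)

/-- (b3) the modular units have no zeros on `ℍ` -/
theorem tx_ufun_ne_zero (m : ℕ) [NeZero m] (γ : SL(2, ℤ)) (z : ℍ) : tx_ufun m γ z ≠ 0 :=
  tx_u_ne_zero m _

/-! ### Invariance under `Γ₀(m)` on the left -/

theorem tx_discriminant_smul (γ : SL(2, ℤ)) (z : ℍ) :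
    Δ (γ • z) = denom γ z ^ 12 * Δ z := by
  have h := congrFun (discriminant_slash_SL γ) z
  rw [ModularForm.SL_slash_apply] at h
  have hd : denom γ z ≠ 0 := denom_ne_zero γ z
  rw [← h]
  rw [mul_comm, mul_assoc, ← zpow_natCast, ← zpow_add₀ hd]
  simp

theorem tx_deltaN_smul {m : ℕ} [NeZero m] (γ : SL(2, ℤ)) (hγ : γ ∈ Gamma0 m) (z : ℍ) :
    deltaN m (γ • z) = denom γ z ^ 12 * deltaN m z := by
  have h := congrFun (Fermat.Agent.S23.deltaN_slash_of_mem m γ hγ) z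
  change (deltaN m ∣[(12 : ℤ)] γ) z = _ at h
  rw [ModularForm.SL_slash_apply] at h
  have hd : denom γ z ≠ 0 := denom_ne_zero γ z
  rw [← h]
  rw [mul_comm, mul_assoc, ← zpow_natCast, ← zpow_add₀ hd]
  simp

theorem tx_u_smul_of_mem_Gamma0 {m : ℕ} [NeZero m] (γ : SL(2, ℤ)) (hγ : γ ∈ Gamma0 m) (z : ℍ) :
    tx_u m (γ • z) = tx_u m z := by
  unfold tx_u
  have h1 := tx_deltaN_smul γ hγ z
  rw [Fermat.Agent.S23.deltaN_apply, Fermat.Agent.S23.deltaN_apply] at h1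
  rw [h1, tx_discriminant_smul]
  have hd : denom γ z ≠ 0 := denom_ne_zero γ z
  have hΔ : Δ z ≠ 0 := discriminant_ne_zero z
  field_simp

theorem tx_mem_Gamma0_of_dvd {m N : ℕ} (hmN : m ∣ N) {γ : SL(2, ℤ)} (hγ : γ ∈ Gamma0 N) :
    γ ∈ Gamma0 m := by
  rw [Gamma0_mem] at hγ ⊢
  rw [ZMod.intCast_zmod_eq_zero_iff_dvd] at hγ ⊢
  exact (Int.natCast_dvd_natCast.mpr hmN).trans hγ

/-- (b1) `yfun d γ` only depends on the coset `Γ₀(N) γ`, `d ∣ N` -/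
theorem tx_yfun_of_mem_Gamma0 {d N : ℕ} [NeZero d] (hdN : d ∣ N) (g γ : SL(2, ℤ))
    (hg : g ∈ Gamma0 N) (z : ℍ) : tx_yfun d (g * γ) z = tx_yfun d γ z := by
  rw [tx_yfun_eq_jd, tx_yfun_eq_jd, mul_smul, jd_smul_of_mem_Gamma0 hdN g hg]

/-- (b1) `ufun m γ` only depends on the coset `Γ₀(N) γ`, `m ∣ N` -/
theorem tx_ufun_of_mem_Gamma0 {m N : ℕ} [NeZero m] (hmN : m ∣ N) (g γ : SL(2, ℤ))
    (hg : g ∈ Gamma0 N) (z : ℍ) : tx_ufun m (g * γ) z = tx_ufun m γ z := by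
  rw [tx_ufun, tx_ufun, mul_smul, tx_u_smul_of_mem_Gamma0 g (tx_mem_Gamma0_of_dvd hmN hg)]

/-! ### Hermite normal form: `diag(m,1) γ = δ (a b; 0 d)` -/

section HNF

variable {m : ℕ} [NeZero m] {γ δ : SL(2, ℤ)} {a b d : ℕ}

omit [NeZero m] in
/-- the entries of the Hermite identity -/
theorem tx_hnf_entries
    (hmat : !![(m : ℤ) * γ 0 0, (m : ℤ) * γ 0 1; γ 1 0, γ 1 1]
      = (δ : Matrix (Fin 2) (Fin 2) ℤ) * !![(a : ℤ), (b : ℤ); 0, (d : ℤ)]) :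
    (m : ℤ) * γ 0 0 = δ 0 0 * a ∧ (m : ℤ) * γ 0 1 = δ 0 0 * b + δ 0 1 * d ∧
      γ 1 0 = δ 1 0 * a ∧ γ 1 1 = δ 1 0 * b + δ 1 1 * d := by
  have h00 := congrFun (congrFun hmat 0) 0
  have h01 := congrFun (congrFun hmat 0) 1
  have h10 := congrFun (congrFun hmat 1) 0
  have h11 := congrFun (congrFun hmat 1) 1
  simp [Matrix.mul_apply, Fin.sum_univ_two] at h00 h01 h10 h11
  exact ⟨h00, h01, h10, h11⟩

omit [NeZero m] in
theorem tx_hnf_mul_eq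
    (hmat : !![(m : ℤ) * γ 0 0, (m : ℤ) * γ 0 1; γ 1 0, γ 1 1]
      = (δ : Matrix (Fin 2) (Fin 2) ℤ) * !![(a : ℤ), (b : ℤ); 0, (d : ℤ)]) :
    a * d = m := by
  obtain ⟨h00, h01, h10, h11⟩ := tx_hnf_entries hmat
  have hγ := Fermat.Agent.S23.sl_det_eq γ
  have hδ := Fermat.Agent.S23.sl_det_eq δ
  have : (a : ℤ) * d = m := by
    linear_combination (m : ℤ) * hγ - γ 1 1 * h00 + γ 1 0 * h01 - δ 0 0 * (a : ℤ) * h11
      + (δ 0 0 * (b : ℤ) + δ 0 1 * (d : ℤ)) * h10 - (a : ℤ) * d * hδ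
  exact_mod_cast this

/-- the Hermite identity in `GL(2,ℝ)` -/
theorem tx_hnf_GL (ha : 0 < a) (hd : 0 < d)
    (hmat : !![(m : ℤ) * γ 0 0, (m : ℤ) * γ 0 1; γ 1 0, γ 1 1]
      = (δ : Matrix (Fin 2) (Fin 2) ℤ) * !![(a : ℤ), (b : ℤ); 0, (d : ℤ)]) :
    alphaN m * Matrix.SpecialLinearGroup.mapGL ℝ γ
      = Matrix.SpecialLinearGroup.mapGL ℝ δ *
        upperTri (a : ℤ) (b : ℤ) (d : ℤ) (by exact_mod_cast ha.ne') (by exact_mod_cast hd.ne') := by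
  obtain ⟨h00, h01, h10, h11⟩ := tx_hnf_entries hmat
  have r00 : (m : ℝ) * ((γ 0 0 : ℤ) : ℝ) = ((δ 0 0 : ℤ) : ℝ) * a := by exact_mod_cast h00
  have r01 : (m : ℝ) * ((γ 0 1 : ℤ) : ℝ) = ((δ 0 0 : ℤ) : ℝ) * b + ((δ 0 1 : ℤ) : ℝ) * d := by
    exact_mod_cast h01
  have r10 : ((γ 1 0 : ℤ) : ℝ) = ((δ 1 0 : ℤ) : ℝ) * a := by exact_mod_cast h10
  have r11 : ((γ 1 1 : ℤ) : ℝ) = ((δ 1 0 : ℤ) : ℝ) * b + ((δ 1 1 : ℤ) : ℝ) * d := by
    exact_mod_cast h11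
  apply Matrix.GeneralLinearGroup.ext
  intro i j
  rw [Matrix.GeneralLinearGroup.coe_mul, Matrix.GeneralLinearGroup.coe_mul,
    Fermat.Agent.S23.coe_GL_val, Fermat.Agent.S23.coe_GL_val, Fermat.Agent.S23.val_alphaN,
    val_upperTri]
  fin_cases i <;> fin_cases j
  · simp; linarith
  · simp; linarith
  · simp; linarith
  · simp; linarith

/-- `diag(m,1) γ z = δ ((a z + b)/d)` -/
theorem tx_hnf_smul (ha : 0 < a) (hd : 0 < d)
    (hmat : !![(m : ℤ) * γ 0 0, (m : ℤ) * γ 0 1; γ 1 0, γ 1 1]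
      = (δ : Matrix (Fin 2) (Fin 2) ℤ) * !![(a : ℤ), (b : ℤ); 0, (d : ℤ)]) (z : ℍ) :
    alphaN m • (γ • z)
      = δ • (upperTri (a : ℤ) (b : ℤ) (d : ℤ) (by exact_mod_cast ha.ne')
          (by exact_mod_cast hd.ne') • z) := by
  change alphaN m • ((Matrix.SpecialLinearGroup.mapGL ℝ γ) • z) =
    (Matrix.SpecialLinearGroup.mapGL ℝ δ) • (upperTri (a : ℤ) (b : ℤ) (d : ℤ) _ _ • z)
  rw [← mul_smul, ← mul_smul, tx_hnf_GL ha hd hmat]

/-- `j_m ∘ γ` in Hermite normal form -/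
theorem tx_yfun_eq (ha : 0 < a) (hd : 0 < d)
    (hmat : !![(m : ℤ) * γ 0 0, (m : ℤ) * γ 0 1; γ 1 0, γ 1 1]
      = (δ : Matrix (Fin 2) (Fin 2) ℤ) * !![(a : ℤ), (b : ℤ); 0, (d : ℤ)]) (z : ℍ) :
    tx_yfun m γ z = kleinJ (upperTri (a : ℤ) (b : ℤ) (d : ℤ) (by exact_mod_cast ha.ne')
      (by exact_mod_cast hd.ne') • z) := by
  rw [tx_yfun_apply, tx_hnf_smul ha hd hmat, kleinJ_smul]

omit [NeZero m] in
/-- the weight `12` cocycle: `denom γ z = d * denom δ ((a z + b)/d)` -/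
theorem tx_hnf_denom (ha : 0 < a) (hd : 0 < d)
    (hmat : !![(m : ℤ) * γ 0 0, (m : ℤ) * γ 0 1; γ 1 0, γ 1 1]
      = (δ : Matrix (Fin 2) (Fin 2) ℤ) * !![(a : ℤ), (b : ℤ); 0, (d : ℤ)]) (z : ℍ) :
    denom γ z = (d : ℂ) * denom δ ((upperTri (a : ℤ) (b : ℤ) (d : ℤ) (by exact_mod_cast ha.ne')
      (by exact_mod_cast hd.ne') • z : ℍ) : ℂ) := by
  obtain ⟨-, -, h10, h11⟩ := tx_hnf_entries hmat
  rw [ModularGroup.denom_apply, ModularGroup.denom_apply,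
    coe_upperTri_smul (a : ℤ) (b : ℤ) (d : ℤ) (by exact_mod_cast ha) (by exact_mod_cast hd)]
  have c10 : ((γ 1 0 : ℤ) : ℂ) = ((δ 1 0 : ℤ) : ℂ) * a := by exact_mod_cast h10
  have c11 : ((γ 1 1 : ℤ) : ℂ) = ((δ 1 0 : ℤ) : ℂ) * b + ((δ 1 1 : ℤ) : ℂ) * d := by
    exact_mod_cast h11
  have hd' : (d : ℂ) ≠ 0 := by exact_mod_cast hd.ne'
  rw [c10, c11]
  push_cast
  field_simp
  ring

/-- `u_m ∘ γ` in Hermite normal form: `a¹² Δ((a z + b)/d) / Δ(z)` -/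
theorem tx_ufun_eq (ha : 0 < a) (hd : 0 < d)
    (hmat : !![(m : ℤ) * γ 0 0, (m : ℤ) * γ 0 1; γ 1 0, γ 1 1]
      = (δ : Matrix (Fin 2) (Fin 2) ℤ) * !![(a : ℤ), (b : ℤ); 0, (d : ℤ)]) (z : ℍ) :
    tx_ufun m γ z = (a : ℂ) ^ 12 * Δ (upperTri (a : ℤ) (b : ℤ) (d : ℤ) (by exact_mod_cast ha.ne')
      (by exact_mod_cast hd.ne') • z) / Δ z := by
  rw [tx_ufun_apply, tx_hnf_smul ha hd hmat, tx_discriminant_smul δ, tx_discriminant_smul γ,
    tx_hnf_denom ha hd hmat]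
  have hm : ((a * d : ℕ) : ℂ) = (m : ℂ) := by rw [tx_hnf_mul_eq hmat]
  rw [← hm]
  have hd' : (d : ℂ) ≠ 0 := by exact_mod_cast hd.ne'
  have hΔ : Δ z ≠ 0 := discriminant_ne_zero z
  have hden : denom δ ((upperTri (a : ℤ) (b : ℤ) (d : ℤ) (by exact_mod_cast ha.ne')
      (by exact_mod_cast hd.ne') • z : ℍ) : ℂ) ≠ 0 := denom_ne_zero δ _
  push_cast
  field_simp

end HNF

/-! ### Generic glue with the formal substitution `q ↦ c t ^ k` -/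

/-- `ζ_N = exp (2 π i / N)` as a unit of `ℂ` -/
noncomputable def tx_zeta (N : ℕ) : ℂˣ := Units.mk0 (fi_zeta N) (fi_zeta_ne_zero N)

@[simp] theorem tx_coe_zeta (N : ℕ) : ((tx_zeta N : ℂˣ) : ℂ) = fi_zeta N := rfl

theorem tx_zeta_isPrimitiveRoot (N : ℕ) [NeZero N] : IsPrimitiveRoot (tx_zeta N) N := by
  have h := fi_zeta_isPrimitiveRoot N
  rw [← tx_coe_zeta] at h
  exact IsPrimitiveRoot.coe_units_iff.mp h

theorem tx_coe_zpow (c : ℂˣ) (n : ℤ) : ((c ^ n : ℂˣ) : ℂ) = (c : ℂ) ^ n := by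
  simp

/-- **the `t`-expansion of `g ((a z + b)/e)` is `(gm_lq g)(c t ^ k)`**, `c = exp (2 π i b / e)`,
`k = N a / e`. -/
theorem tx_germ_comp_tri (N : ℕ) [NeZero N] (a b e : ℤ) (ha : 0 < a) (he : 0 < e) (k : ℕ)
    [NeZero k] (hk : (N : ℤ) * a = k * e) {g : ℍ → ℂ} (hg : gm_IsMerQ g) (c : ℂˣ)
    (hc : (c : ℂ) = cexp (2 * π * Complex.I * (((b : ℝ) / (e : ℝ) : ℝ) : ℂ))) :
    fi_germ N (fun z => g (upperTri a b e ha.ne' he.ne' • z)) = fs_subst c k (gm_lq g) := by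
  ext n
  rw [tx_germ_comp_tri_coeff N a b e ha he k hk hg n]
  split_ifs with hd
  · obtain ⟨n', rfl⟩ := hd
    have hk0 : (k : ℤ) ≠ 0 := by exact_mod_cast NeZero.ne k
    rw [Int.mul_ediv_cancel_left _ hk0, fs_subst_coeff_mul, tx_coe_zpow, hc]
  · rw [fs_subst_coeff_of_not_dvd c k _ hd]

/-- the `t`-expansion of a `1`-periodic function is its `q`-expansion in `q = t ^ N` -/
theorem tx_germ_of_isMerQ (N : ℕ) [NeZero N] {g : ℍ → ℂ} (hg : gm_IsMerQ g) :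
    fi_germ N g = ModularCurve.qExpand ℂ N (gm_lq g) := by
  ext n
  rw [tx_fi_germ_eq_cusp, gm_cusp_coeff_of_isMerQ hg]
  split_ifs with hd
  · obtain ⟨n', rfl⟩ := hd
    have hN0 : (N : ℤ) ≠ 0 := by exact_mod_cast NeZero.ne N
    rw [Int.mul_ediv_cancel_left _ hN0, ModularCurve.qExpand_coeff_mul]
  · rw [ModularCurve.qExpand_coeff_of_not_dvd N _ hd]

theorem tx_fi_P_of_isMerQ (N : ℕ) [NeZero N] {g : ℍ → ℂ} (hg : gm_IsMerQ g) : fi_P N g :=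
  tx_fi_P_of_isMerCusp (gm_IsMerQ.isMerCusp hg)

/-! ### `Δ` and `1/Δ` -/

theorem tx_DeltaC_eq : tx_DeltaC = fs_Delta ℂ := rfl

theorem tx_isMerQ_discriminant_inv : gm_IsMerQ (fun z => (Δ z)⁻¹) := by
  refine ⟨1, ?_⟩
  have h : qH ^ 1 * (fun z => (Δ z)⁻¹) = (1 : ℍ → ℂ) / etaProdH := by
    ext z
    simp only [pow_one, Pi.mul_apply, Pi.div_apply, Pi.one_apply, etaProdH]
    have h1 : Δ z ≠ 0 := discriminant_ne_zero z
    have h2 : qH z ≠ 0 := qH_ne_zero z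
    field_simp
  rw [h]
  exact IsQFun.div IsQFun.one isQFun_etaProdH etaProdH_ne_zero
    (by rw [valueAtInfty_etaProdH]; exact one_ne_zero)

theorem tx_lq_discriminant_inv : gm_lq (fun z => (Δ z)⁻¹) = fs_DeltaInv ℂ := by
  have h1 : gm_lq (Δ : ℍ → ℂ) * gm_lq (fun z => (Δ z)⁻¹) = 1 := by
    rw [← gm_lq_mul tx_isMerQ_discriminant tx_isMerQ_discriminant_inv, ← gm_lq_one]
    congr 1
    ext z
    simp only [Pi.mul_apply, Pi.one_apply]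
    exact mul_inv_cancel₀ (discriminant_ne_zero z)
  rw [tx_lq_discriminant, tx_DeltaC_eq] at h1
  calc gm_lq (fun z => (Δ z)⁻¹)
      = (fs_DeltaInv ℂ * fs_Delta ℂ) * gm_lq (fun z => (Δ z)⁻¹) := by
        rw [fs_DeltaInv_mul, one_mul]
    _ = fs_DeltaInv ℂ := by rw [mul_assoc, h1, mul_one]

/-! ### closure properties of `fi_P` -/

theorem tx_fi_P_mul (N : ℕ) [NeZero N] {f g : ℍ → ℂ} (hf : fi_P N f) (hg : fi_P N g) :
    fi_P N (f * g) :=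
  gm_IsMerQ.mul hf hg

theorem tx_fi_P_const (N : ℕ) [NeZero N] (c : ℂ) : fi_P N (fun _ => c) :=
  gm_IsMerQ.const c

theorem tx_germ_mul (N : ℕ) [NeZero N] {f g : ℍ → ℂ} (hf : fi_P N f) (hg : fi_P N g) :
    fi_germ N (f * g) = fi_germ N f * fi_germ N g :=
  (fi_isGerm N).mul f g hf hg

theorem tx_germ_const (N : ℕ) [NeZero N] (c : ℂ) : fi_germ N (fun _ => c) = HahnSeries.C c :=
  (fi_isGerm N).const c

/-- admissible functions are holomorphic -/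
theorem tx_mdiff_of_fi_P (N : ℕ) [NeZero N] {h : ℍ → ℂ} (hh : fi_P N h) : MDiff h := by
  have h1 : MDiff (fun τ => h (alphaN N • τ)) := gm_IsMerQ.mdiff hh
  have hdet : 0 < ((alphaN N)⁻¹ : GL (Fin 2) ℝ).det.val := by
    have h2 := Fermat.Agent.S23.det_alphaN_pos N
    rw [map_inv, Units.val_inv_eq_inv_val]
    exact inv_pos.mpr h2
  have h3 := h1.comp (UpperHalfPlane.mdifferentiable_smul hdet)
  have h4 : ((fun τ => h (alphaN N • τ)) ∘ fun τ : ℍ => (alphaN N)⁻¹ • τ) = h := by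
    ext z
    simp
  rwa [h4] at h3

/-! ### (b2) the `t`-expansions of the conjugates -/

section Expansion

variable (N : ℕ) [NeZero N] {m : ℕ} [NeZero m] {γ δ : SL(2, ℤ)} {a b d : ℕ}

omit [NeZero m] in
/-- arithmetic of the exponent and the root of unity -/
theorem tx_exp_root (hmN : m ∣ N) (ha : 0 < a) (hd : 0 < d) (had : a * d = m) :
    (N : ℤ) * (a : ℤ) = (fs_exp N a d : ℕ) * (d : ℤ) ∧
      ((fs_root (tx_zeta N) N b d : ℂˣ) : ℂ)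
        = cexp (2 * π * Complex.I * ((((b : ℤ) : ℝ) / ((d : ℤ) : ℝ) : ℝ) : ℂ)) := by
  have hdN : d ∣ N := (Dvd.intro_left a had).trans hmN
  obtain ⟨e, rfl⟩ := hdN
  have he : 0 < e := by
    rcases Nat.eq_zero_or_pos e with h | h
    · exact absurd (by rw [h, mul_zero]) (NeZero.ne (d * e))
    · exact h
  have h1 : d * e * a / d = e * a := by
    rw [mul_assoc, Nat.mul_div_cancel_left _ hd]
  have h2 : d * e / d = e := Nat.mul_div_cancel_left _ hd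
  have h3 : d * e * a / d ≠ 0 := by rw [h1]; exact (Nat.mul_pos he ha).ne'
  refine ⟨?_, ?_⟩
  · rw [fs_exp_eq h3, h1]
    push_cast
    ring
  · rw [fs_root, h2, Units.val_pow_eq_pow_val, tx_coe_zeta, fi_zeta, ← Complex.exp_nat_mul]
    congr 1
    have hd' : (d : ℂ) ≠ 0 := by exact_mod_cast hd.ne'
    have he' : (e : ℂ) ≠ 0 := by exact_mod_cast he.ne'
    push_cast
    field_simp

variable (hmN : m ∣ N) (ha : 0 < a) (hd : 0 < d)
  (hmat : !![(m : ℤ) * γ 0 0, (m : ℤ) * γ 0 1; γ 1 0, γ 1 1]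
    = (δ : Matrix (Fin 2) (Fin 2) ℤ) * !![(a : ℤ), (b : ℤ); 0, (d : ℤ)])

include hmN ha hd hmat

theorem tx_fi_P_yfun_of_hnf : fi_P N (tx_yfun m γ) := by
  have h : tx_yfun m γ = fun z => kleinJ (upperTri (a : ℤ) (b : ℤ) (d : ℤ)
      (by exact_mod_cast ha.ne') (by exact_mod_cast hd.ne') • z) :=
    funext (tx_yfun_eq ha hd hmat)
  rw [h]
  exact tx_fi_P_comp_tri N a b d (by exact_mod_cast ha) (by exact_mod_cast hd) (fs_exp N a d)
    (tx_exp_root (b := b) N hmN ha hd (tx_hnf_mul_eq hmat)).1 gm_isMerQ_kleinJ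

/-- (b2) the `t`-expansion of `j_m ∘ γ` is the formal `fs_jm` -/
theorem tx_germ_yfun_of_hnf :
    fi_germ N (tx_yfun m γ) = fs_jm (tx_zeta N) N a b d := by
  have h : tx_yfun m γ = fun z => kleinJ (upperTri (a : ℤ) (b : ℤ) (d : ℤ)
      (by exact_mod_cast ha.ne') (by exact_mod_cast hd.ne') • z) :=
    funext (tx_yfun_eq ha hd hmat)
  obtain ⟨h1, h2⟩ := tx_exp_root (b := b) N hmN ha hd (tx_hnf_mul_eq hmat)
  rw [h, tx_germ_comp_tri N a b d (by exact_mod_cast ha) (by exact_mod_cast hd) (fs_exp N a d)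
    h1 gm_isMerQ_kleinJ (fs_root (tx_zeta N) N b d) h2, tx_lq_kleinJ]
  rfl

omit [NeZero N] hmN in
theorem tx_ufun_eq_mul :
    tx_ufun m γ = (fun _ => (a : ℂ) ^ 12) *
      (fun z => Δ (upperTri (a : ℤ) (b : ℤ) (d : ℤ) (by exact_mod_cast ha.ne')
        (by exact_mod_cast hd.ne') • z)) * (fun z => (Δ z)⁻¹) := by
  ext z
  rw [tx_ufun_eq ha hd hmat z]
  simp only [Pi.mul_apply, div_eq_mul_inv]

omit [NeZero N] hmN in
theorem tx_ufun_inv_eq_mul :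
    (fun z => (tx_ufun m γ z)⁻¹) = (fun _ => ((a : ℂ)⁻¹) ^ 12) *
      (fun z => (fun w => (Δ w)⁻¹) (upperTri (a : ℤ) (b : ℤ) (d : ℤ) (by exact_mod_cast ha.ne')
        (by exact_mod_cast hd.ne') • z)) * (Δ : ℍ → ℂ) := by
  ext z
  rw [tx_ufun_eq ha hd hmat z]
  simp only [Pi.mul_apply, div_eq_mul_inv, mul_inv, inv_inv, inv_pow]

theorem tx_fi_P_discriminant_tri :
    fi_P N (fun z => Δ (upperTri (a : ℤ) (b : ℤ) (d : ℤ) (by exact_mod_cast ha.ne')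
      (by exact_mod_cast hd.ne') • z)) :=
  tx_fi_P_comp_tri N a b d (by exact_mod_cast ha) (by exact_mod_cast hd) (fs_exp N a d)
    (tx_exp_root (b := b) N hmN ha hd (tx_hnf_mul_eq hmat)).1 tx_isMerQ_discriminant

theorem tx_fi_P_discriminant_inv_tri :
    fi_P N (fun z => (fun w => (Δ w)⁻¹) (upperTri (a : ℤ) (b : ℤ) (d : ℤ)
      (by exact_mod_cast ha.ne') (by exact_mod_cast hd.ne') • z)) :=
  tx_fi_P_comp_tri N a b d (by exact_mod_cast ha) (by exact_mod_cast hd) (fs_exp N a d)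
    (tx_exp_root (b := b) N hmN ha hd (tx_hnf_mul_eq hmat)).1 tx_isMerQ_discriminant_inv

theorem tx_fi_P_ufun_of_hnf : fi_P N (tx_ufun m γ) := by
  rw [tx_ufun_eq_mul ha hd hmat]
  exact tx_fi_P_mul N (tx_fi_P_mul N (tx_fi_P_const N _)
    (tx_fi_P_discriminant_tri N hmN ha hd hmat))
    (tx_fi_P_of_isMerQ N tx_isMerQ_discriminant_inv)

theorem tx_fi_P_ufun_inv_of_hnf : fi_P N (fun z => (tx_ufun m γ z)⁻¹) := by
  rw [tx_ufun_inv_eq_mul ha hd hmat]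
  exact tx_fi_P_mul N (tx_fi_P_mul N (tx_fi_P_const N _)
    (tx_fi_P_discriminant_inv_tri N hmN ha hd hmat))
    (tx_fi_P_of_isMerQ N tx_isMerQ_discriminant)

/-- (b2) the `t`-expansion of `u_m ∘ γ` is the formal `fs_um` -/
theorem tx_germ_ufun_of_hnf :
    fi_germ N (tx_ufun m γ) = fs_um (tx_zeta N) N a b d := by
  obtain ⟨h1, h2⟩ := tx_exp_root (b := b) N hmN ha hd (tx_hnf_mul_eq hmat)
  rw [tx_ufun_eq_mul ha hd hmat,
    tx_germ_mul N (tx_fi_P_mul N (tx_fi_P_const N _) (tx_fi_P_discriminant_tri N hmN ha hd hmat))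
      (tx_fi_P_of_isMerQ N tx_isMerQ_discriminant_inv),
    tx_germ_mul N (tx_fi_P_const N _) (tx_fi_P_discriminant_tri N hmN ha hd hmat),
    tx_germ_const,
    tx_germ_comp_tri N a b d (by exact_mod_cast ha) (by exact_mod_cast hd) (fs_exp N a d)
      h1 tx_isMerQ_discriminant (fs_root (tx_zeta N) N b d) h2,
    tx_germ_of_isMerQ N tx_isMerQ_discriminant_inv, tx_lq_discriminant, tx_DeltaC_eq,
    tx_lq_discriminant_inv, ← fs_subst_one_eq_qExpand]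
  rfl

/-- (b2) the `t`-expansion of `(u_m ∘ γ)⁻¹` is the formal `fs_umInv` -/
theorem tx_germ_ufun_inv_of_hnf :
    fi_germ N (fun z => (tx_ufun m γ z)⁻¹) = fs_umInv (tx_zeta N) N a b d ((a : ℂ)⁻¹) := by
  obtain ⟨h1, h2⟩ := tx_exp_root (b := b) N hmN ha hd (tx_hnf_mul_eq hmat)
  rw [tx_ufun_inv_eq_mul ha hd hmat,
    tx_germ_mul N (tx_fi_P_mul N (tx_fi_P_const N _)
      (tx_fi_P_discriminant_inv_tri N hmN ha hd hmat))
      (tx_fi_P_of_isMerQ N tx_isMerQ_discriminant),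
    tx_germ_mul N (tx_fi_P_const N _) (tx_fi_P_discriminant_inv_tri N hmN ha hd hmat),
    tx_germ_const,
    tx_germ_comp_tri N a b d (by exact_mod_cast ha) (by exact_mod_cast hd) (fs_exp N a d)
      h1 tx_isMerQ_discriminant_inv (fs_root (tx_zeta N) N b d) h2,
    tx_germ_of_isMerQ N tx_isMerQ_discriminant, tx_lq_discriminant, tx_DeltaC_eq,
    tx_lq_discriminant_inv, ← fs_subst_one_eq_qExpand]
  rfl

end Expansion

/-! ### Unconditional forms (Hermite data from `ig_hnf`) -/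

section Final

variable (N : ℕ) [NeZero N] {m : ℕ} [NeZero m] (hmN : m ∣ N) (γ : SL(2, ℤ))

include hmN

/-- **W2b (b2)**: for every `γ ∈ SL(2,ℤ)` and `m ∣ N` there is `b < d = m / a`, `a = gcd(m, c_γ)`,
such that the `t`-expansions (`t = exp (2 π i z / N)`) of `j_m ∘ γ`, `u_m ∘ γ`, `(u_m ∘ γ)⁻¹`
are the formal series of `Formal/Defs.lean` with `ζ = exp (2 π i / N)`. -/
theorem tx_exists_expansion :
    ∃ b : ℕ, b < m / ig_a m γ ∧
      fi_germ N (tx_yfun m γ) = fs_jm (tx_zeta N) N (ig_a m γ) b (m / ig_a m γ) ∧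
      fi_germ N (tx_ufun m γ) = fs_um (tx_zeta N) N (ig_a m γ) b (m / ig_a m γ) ∧
      fi_germ N (fun z => (tx_ufun m γ z)⁻¹)
        = fs_umInv (tx_zeta N) N (ig_a m γ) b (m / ig_a m γ) ((ig_a m γ : ℂ))⁻¹ := by
  have hm : 0 < m := Nat.pos_of_ne_zero (NeZero.ne m)
  obtain ⟨δ, b, hb, hmat⟩ := ig_hnf m hm γ
  have ha : 0 < ig_a m γ := ig_a_pos hm γ
  have hd : 0 < m / ig_a m γ :=
    Nat.div_pos (Nat.le_of_dvd hm (ig_a_dvd m γ)) ha
  exact ⟨b, hb, tx_germ_yfun_of_hnf N hmN ha hd hmat, tx_germ_ufun_of_hnf N hmN ha hd hmat,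
    tx_germ_ufun_inv_of_hnf N hmN ha hd hmat⟩

/-- (b1) admissibility of the conjugates -/
theorem tx_fi_P_yfun : fi_P N (tx_yfun m γ) := by
  have hm : 0 < m := Nat.pos_of_ne_zero (NeZero.ne m)
  obtain ⟨δ, b, -, hmat⟩ := ig_hnf m hm γ
  have ha : 0 < ig_a m γ := ig_a_pos hm γ
  have hd : 0 < m / ig_a m γ :=
    Nat.div_pos (Nat.le_of_dvd hm (ig_a_dvd m γ)) ha
  exact tx_fi_P_yfun_of_hnf N hmN ha hd hmat

theorem tx_fi_P_ufun : fi_P N (tx_ufun m γ) := by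
  have hm : 0 < m := Nat.pos_of_ne_zero (NeZero.ne m)
  obtain ⟨δ, b, -, hmat⟩ := ig_hnf m hm γ
  have ha : 0 < ig_a m γ := ig_a_pos hm γ
  have hd : 0 < m / ig_a m γ :=
    Nat.div_pos (Nat.le_of_dvd hm (ig_a_dvd m γ)) ha
  exact tx_fi_P_ufun_of_hnf N hmN ha hd hmat

theorem tx_fi_P_ufun_inv : fi_P N (fun z => (tx_ufun m γ z)⁻¹) := by
  have hm : 0 < m := Nat.pos_of_ne_zero (NeZero.ne m)
  obtain ⟨δ, b, -, hmat⟩ := ig_hnf m hm γ
  have ha : 0 < ig_a m γ := ig_a_pos hm γ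
  have hd : 0 < m / ig_a m γ :=
    Nat.div_pos (Nat.le_of_dvd hm (ig_a_dvd m γ)) ha
  exact tx_fi_P_ufun_inv_of_hnf N hmN ha hd hmat

/-- (b1) holomorphy -/
theorem tx_mdiff_yfun : MDiff (tx_yfun m γ) := tx_mdiff_of_fi_P N (tx_fi_P_yfun N hmN γ)

theorem tx_mdiff_ufun : MDiff (tx_ufun m γ) := tx_mdiff_of_fi_P N (tx_fi_P_ufun N hmN γ)

theorem tx_mdiff_ufun_inv : MDiff (fun z => (tx_ufun m γ z)⁻¹) :=
  tx_mdiff_of_fi_P N (tx_fi_P_ufun_inv N hmN γ)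

end Final

end Fermat.Agent.S28
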