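/-
S28 (Igusa), glue W1 + W2b → W2c: the analytic families of conjugates `j_m ∘ γ`, `u_m ∘ γ`
indexed by the Hermite normal forms `hnf_I N` (helper25's `Comb/HNFIndex.lean`), with their
`SL(2,ℤ)`-equivariance and their `t`-expansions in the shape of `IgDatum` (`Formal/Datum.lean`).
-/
import Mathlib
import Fermat.Agent.S28.Analytic.Units
import Fermat.Agent.S28.Comb.HNFTrans

set_option autoImplicit false

open UpperHalfPlane ModularForm Filter Topology Function Complex CongruenceSubgroup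
open scoped MatrixGroups Manifold Real
open Fermat.Agent.S23 (alphaN)
open Fermat.Agent.S24

namespace Fermat.Agent.S28

local notation "Δ" => ModularForm.discriminant

variable (N : ℕ) [NeZero N]

/-! ### Representatives -/

/-- a representative `γ` of the coset with index `α`: `∞ · γ = α` -/
noncomputable def tx_rep (α : hnf_I N) : SL(2, ℤ) :=
  (hnf_act_inf_surjective (NeZero.ne N) α).choose

theorem tx_rep_spec (α : hnf_I N) : hnf_act (hnf_inf N) (tx_rep N α) = α :=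
  (hnf_act_inf_surjective (NeZero.ne N) α).choose_spec

/-- two elements with the same index differ by an element of `Γ₀(N)` on the left -/
theorem tx_exists_Gamma0_of_index_eq {γ₁ γ₂ : SL(2, ℤ)}
    (h : hnf_act (hnf_inf N) γ₁ = hnf_act (hnf_inf N) γ₂) :
    ∃ g : SL(2, ℤ), g ∈ Gamma0 N ∧ γ₁ = g * γ₂ := by
  refine ⟨γ₁ * γ₂⁻¹, ?_, by rw [inv_mul_cancel_right]⟩
  rw [Gamma0_mem, ZMod.intCast_zmod_eq_zero_iff_dvd]
  exact (hnf_act_inf_eq_iff_dvd (NeZero.ne N) γ₁ γ₂).mp h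

/-- `yfun m γ`, `m ∣ N`, only depends on the index of `γ` -/
theorem tx_yfun_eq_of_index_eq {m : ℕ} [NeZero m] (hmN : m ∣ N) {γ₁ γ₂ : SL(2, ℤ)}
    (h : hnf_act (hnf_inf N) γ₁ = hnf_act (hnf_inf N) γ₂) (z : ℍ) :
    tx_yfun m γ₁ z = tx_yfun m γ₂ z := by
  obtain ⟨g, hg, rfl⟩ := tx_exists_Gamma0_of_index_eq N h
  exact tx_yfun_of_mem_Gamma0 hmN g γ₂ hg z

/-- `ufun m γ`, `m ∣ N`, only depends on the index of `γ` -/
theorem tx_ufun_eq_of_index_eq {m : ℕ} [NeZero m] (hmN : m ∣ N) {γ₁ γ₂ : SL(2, ℤ)}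
    (h : hnf_act (hnf_inf N) γ₁ = hnf_act (hnf_inf N) γ₂) (z : ℍ) :
    tx_ufun m γ₁ z = tx_ufun m γ₂ z := by
  obtain ⟨g, hg, rfl⟩ := tx_exists_Gamma0_of_index_eq N h
  exact tx_ufun_of_mem_Gamma0 hmN g γ₂ hg z

/-! ### The families -/

/-- the conjugates of `j_m` (`m ∣ N`), indexed by `hnf_I N` -/
noncomputable def tx_Ym (m : ℕ) [NeZero m] (α : hnf_I N) : ℍ → ℂ := tx_yfun m (tx_rep N α)

/-- the conjugates of `j_N`, indexed by `hnf_I N` -/
noncomputable def tx_Y (α : hnf_I N) : ℍ → ℂ := tx_Ym N N α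

/-- the conjugates of the modular unit `u_m` (`m ∣ N`), indexed by `hnf_I N` -/
noncomputable def tx_U (m : ℕ) [NeZero m] (α : hnf_I N) : ℍ → ℂ := tx_ufun m (tx_rep N α)

/-- the inverses of the conjugates of the modular units -/
noncomputable def tx_Uinv (m : ℕ) [NeZero m] (α : hnf_I N) : ℍ → ℂ :=
  fun z => (tx_U N m α z)⁻¹

theorem tx_index_rep_mul (α : hnf_I N) (δ : SL(2, ℤ)) :
    hnf_act (hnf_inf N) (tx_rep N α * δ)
      = hnf_act (hnf_inf N) (tx_rep N (hnf_act α δ)) := by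
  rw [hnf_act_mul (NeZero.ne N), tx_rep_spec, tx_rep_spec]

section Equivariance

variable {m : ℕ} [NeZero m] (hmN : m ∣ N)

include hmN

/-- **equivariance**: `Y_α (δ z) = Y_{α · δ} (z)` -/
theorem tx_Ym_smul (α : hnf_I N) (δ : SL(2, ℤ)) (z : ℍ) :
    tx_Ym N m α (δ • z) = tx_Ym N m (hnf_act α δ) z := by
  unfold tx_Ym
  rw [← tx_yfun_mul]
  exact tx_yfun_eq_of_index_eq N hmN (tx_index_rep_mul N α δ) z

/-- **equivariance**: `U_{m,α} (δ z) = U_{m, α · δ} (z)` -/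
theorem tx_U_smul (α : hnf_I N) (δ : SL(2, ℤ)) (z : ℍ) :
    tx_U N m α (δ • z) = tx_U N m (hnf_act α δ) z := by
  unfold tx_U
  rw [← tx_ufun_mul]
  exact tx_ufun_eq_of_index_eq N hmN (tx_index_rep_mul N α δ) z

theorem tx_Uinv_smul (α : hnf_I N) (δ : SL(2, ℤ)) (z : ℍ) :
    tx_Uinv N m α (δ • z) = tx_Uinv N m (hnf_act α δ) z := by
  unfold tx_Uinv
  rw [tx_U_smul N hmN]

end Equivariance

theorem tx_Y_smul (α : hnf_I N) (δ : SL(2, ℤ)) (z : ℍ) :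
    tx_Y N α (δ • z) = tx_Y N (hnf_act α δ) z :=
  tx_Ym_smul N (dvd_refl N) α δ z

theorem tx_U_ne_zero (m : ℕ) [NeZero m] (α : hnf_I N) (z : ℍ) : tx_U N m α z ≠ 0 :=
  tx_ufun_ne_zero m _ z

theorem tx_U_mul_Uinv (m : ℕ) [NeZero m] (α : hnf_I N) :
    tx_U N m α * tx_Uinv N m α = 1 := by
  ext z
  simp only [Pi.mul_apply, Pi.one_apply, tx_Uinv]
  exact mul_inv_cancel₀ (tx_U_ne_zero N m α z)

/-! ### Admissibility and holomorphy -/

section Adm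

variable {m : ℕ} [NeZero m] (hmN : m ∣ N) (α : hnf_I N)

include hmN

theorem tx_fi_P_Ym : fi_P N (tx_Ym N m α) := tx_fi_P_yfun N hmN _

theorem tx_fi_P_U : fi_P N (tx_U N m α) := tx_fi_P_ufun N hmN _

theorem tx_fi_P_Uinv : fi_P N (tx_Uinv N m α) := tx_fi_P_ufun_inv N hmN _

theorem tx_mdiff_Ym : MDiff (tx_Ym N m α) := tx_mdiff_yfun N hmN _

theorem tx_mdiff_U : MDiff (tx_U N m α) := tx_mdiff_ufun N hmN _

theorem tx_mdiff_Uinv : MDiff (tx_Uinv N m α) := tx_mdiff_ufun_inv N hmN _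

end Adm

/-! ### The `t`-expansions in `IgDatum` shape -/

section Germ

variable {m : ℕ} [NeZero m] (hmN : m ∣ N) (α : hnf_I N)

theorem tx_hnf_A_pos : 0 < hnf_A α m := (hnf_proj m α).a_pos (NeZero.ne m)

theorem tx_hnf_d_pos : 0 < m / hnf_A α m := by
  rw [← hnf_proj_d_eq (NeZero.ne m) α]
  exact (hnf_proj m α).d_pos

include hmN

/-- the Hermite identity for the representative of `α` at level `m` -/
theorem tx_rep_hnf :
    ∃ δ : SL(2, ℤ),
      !![(m : ℤ) * (tx_rep N α) 0 0, (m : ℤ) * (tx_rep N α) 0 1;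
          (tx_rep N α) 1 0, (tx_rep N α) 1 1] =
        (δ : Matrix (Fin 2) (Fin 2) ℤ) *
          !![(hnf_A α m : ℤ), (hnf_B α m : ℤ); 0, ((m / hnf_A α m : ℕ) : ℤ)] := by
  have h := hnf_diag_mul (NeZero.ne N) hmN (tx_rep N α)
  rw [tx_rep_spec] at h
  exact h

/-- the `t`-expansion of `Y_{m,α}` -/
theorem tx_germ_Ym :
    fi_germ N (tx_Ym N m α) = fs_jm (tx_zeta N) N (hnf_A α m) (hnf_B α m) (m / hnf_A α m) := by
  obtain ⟨δ, hmat⟩ := tx_rep_hnf N hmN α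
  exact tx_germ_yfun_of_hnf N hmN (tx_hnf_A_pos N α) (tx_hnf_d_pos N α) hmat

/-- the `t`-expansion of `U_{m,α}` -/
theorem tx_germ_U :
    fi_germ N (tx_U N m α) = fs_um (tx_zeta N) N (hnf_A α m) (hnf_B α m) (m / hnf_A α m) := by
  obtain ⟨δ, hmat⟩ := tx_rep_hnf N hmN α
  exact tx_germ_ufun_of_hnf N hmN (tx_hnf_A_pos N α) (tx_hnf_d_pos N α) hmat

omit [NeZero m] in
/-- the inverse of `A α m` in the form used by `IgDatum` -/
theorem tx_inv_hnf_A :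
    ((hnf_A α m : ℕ) : ℂ)⁻¹ = ((N / hnf_A α m : ℕ) : ℂ) * (N : ℂ)⁻¹ := by
  have hdvd : hnf_A α m ∣ N := (hnf_A_dvd' α m).trans hmN
  have hN : (N : ℂ) ≠ 0 := Nat.cast_ne_zero.mpr (NeZero.ne N)
  have ha : ((hnf_A α m : ℕ) : ℂ) ≠ 0 := by
    intro h0
    have h1 : hnf_A α m = 0 := by exact_mod_cast h0
    rw [h1, zero_dvd_iff] at hdvd
    exact NeZero.ne N hdvd
  have h : ((hnf_A α m : ℕ) : ℂ) * ((N / hnf_A α m : ℕ) : ℂ) = (N : ℂ) := by
    rw [← Nat.cast_mul, Nat.mul_div_cancel' hdvd]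
  field_simp
  rw [mul_comm]
  exact h.symm.trans (mul_comm _ _)

/-- the `t`-expansion of `U_{m,α}⁻¹` -/
theorem tx_germ_Uinv :
    fi_germ N (tx_Uinv N m α)
      = fs_umInv (tx_zeta N) N (hnf_A α m) (hnf_B α m) (m / hnf_A α m)
          (((N / hnf_A α m : ℕ) : ℂ) * (N : ℂ)⁻¹) := by
  obtain ⟨δ, hmat⟩ := tx_rep_hnf N hmN α
  rw [← tx_inv_hnf_A N hmN α]
  exact tx_germ_ufun_inv_of_hnf N hmN (tx_hnf_A_pos N α) (tx_hnf_d_pos N α) hmat

end Germ

/-- the `t`-expansion of `Y_α` (level `N`) -/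
theorem tx_germ_Y (α : hnf_I N) :
    fi_germ N (tx_Y N α) = fs_jm (tx_zeta N) N (hnf_A α N) (hnf_B α N) (N / hnf_A α N) :=
  tx_germ_Ym N (dvd_refl N) α

/-- `Y_∞ = j_N`: the conjugate at the index `∞ = (N, 0, 1)` is `z ↦ j(N z)` -/
theorem tx_Y_inf (z : ℍ) : tx_Y N (hnf_inf N) z = jd N z := by
  have h : hnf_act (hnf_inf N) (tx_rep N (hnf_inf N)) = hnf_act (hnf_inf N) 1 := by
    rw [tx_rep_spec, hnf_act_one (NeZero.ne N)]
  have h2 := tx_yfun_eq_of_index_eq N (dvd_refl N) h z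
  unfold tx_Y tx_Ym
  rw [h2, tx_yfun_eq_jd, one_smul]

end Fermat.Agent.S28
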